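import Fermat.Agent.Sharkovskii.Forcing

/-!
# Truncated tent maps realise every tail of Sharkovskii's order

The tent map has every period. With `h m` the least possible maximum of an `m`-cycle, the tent map
cut off at `h m` has the periods `n` with `h n ≤ h m`, and forcing shows that they are the
successors of `m`.
-/

set_option autoImplicit false

noncomputable section

open Function Set

namespace FA.Sharkovskii

/-- The tent map. -/
def tent (x : ℝ) : ℝ := 1 - |2 * x - 1|

/-- The tent map cut off at height `h`. -/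
def tentCut (h x : ℝ) : ℝ := min h (tent x)

theorem continuous_tent : Continuous tent := by unfold tent; fun_prop

theorem continuous_tentCut (h : ℝ) : Continuous (tentCut h) := continuous_const.min continuous_tent

theorem tent_neg {x : ℝ} (hx : x < 0) : tent x = 2 * x := by
  rw [tent, abs_of_neg (by linarith)]; ring

theorem tent_neg_of_one_lt {x : ℝ} (hx : 1 < x) : tent x < 0 := by
  rw [tent, abs_of_pos (by linarith)]; linarith

theorem iterate_neg {x : ℝ} (hx : x < 0) : ∀ n, tent^[n] x = 2 ^ n * x := by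
  intro n
  induction n with
  | zero => simp
  | succ n ih =>
    rw [iterate_succ_apply', ih, tent_neg (mul_neg_of_pos_of_neg (by positivity) hx), pow_succ']
    ring

theorem fixed_mem_Icc {x : ℝ} {n : ℕ} (hn : 0 < n) (h : tent^[n] x = x) : x ∈ Icc (0 : ℝ) 1 := by
  refine ⟨not_lt.1 fun hx => ?_, not_lt.1 fun hx => ?_⟩
  · rw [iterate_neg hx] at h
    nlinarith [one_lt_pow₀ (one_lt_two : (1 : ℝ) < 2) hn.ne']
  · rw [show n = n - 1 + 1 by omega, iterate_succ_apply, iterate_neg (tent_neg_of_one_lt hx)] at h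
    nlinarith [tent_neg_of_one_lt hx, pow_pos (two_pos : (0 : ℝ) < 2) (n - 1)]

theorem tent_iterate_affine (x : ℝ) :
    ∀ n, ∃ j : ℤ, tent^[n] x = 2 ^ n * x + j ∨ tent^[n] x = -(2 ^ n * x) + j := by
  intro n
  induction n with
  | zero => exact ⟨0, Or.inl (by simp)⟩
  | succ n ih =>
    obtain ⟨j, hj⟩ := ih
    rw [iterate_succ_apply', tent]
    rcases le_total 0 (2 * tent^[n] x - 1) with h | h
    · rw [abs_of_nonneg h]
      rcases hj with hj | hj
      · exact ⟨2 - 2 * j, Or.inr (by rw [hj]; push_cast; ring)⟩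
      · exact ⟨2 - 2 * j, Or.inl (by rw [hj]; push_cast; ring)⟩
    · rw [abs_of_nonpos h]
      rcases hj with hj | hj
      · exact ⟨2 * j, Or.inl (by rw [hj]; push_cast; ring)⟩
      · exact ⟨2 * j, Or.inr (by rw [hj]; push_cast; ring)⟩

theorem finite_fixed {n : ℕ} (hn : 0 < n) : {x : ℝ | tent^[n] x = x}.Finite := by
  refine (((Finset.Icc (-(2 ^ n + 1) : ℤ) (2 ^ n + 1)).finite_toSet.image
    fun j : ℤ => (j : ℝ) / (1 - 2 ^ n)).union
      ((Finset.Icc (-(2 ^ n + 1) : ℤ) (2 ^ n + 1)).finite_toSet.image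
        fun j : ℤ => (j : ℝ) / (1 + 2 ^ n))).subset fun x (hx : tent^[n] x = x) => ?_
  obtain ⟨h0, h1⟩ := fixed_mem_Icc hn hx
  have h2 : (1 : ℝ) < 2 ^ n := one_lt_pow₀ one_lt_two hn.ne'
  obtain ⟨j, hj | hj⟩ := tent_iterate_affine x n <;> rw [hx] at hj
  on_goal 1 => left
  on_goal 2 => right
  all_goals
    refine ⟨j, Finset.mem_coe.2 (Finset.mem_Icc.2 ?_), ?_⟩
    · constructor <;> rify <;> nlinarith
    · show (j : ℝ) / _ = x
      rw [div_eq_iff (by linarith)]; linarith

/-- The tent map has all periods. -/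
theorem mem_periods_tent {n : ℕ} (hn : 0 < n) : n ∈ periods tent := by
  have h3 : 3 ∈ periods tent := by
    have : Fact (Nat.Prime 3) := ⟨Nat.prime_three⟩
    refine ⟨three_pos, 2 / 7, minimalPeriod_eq_prime ?_ ?_⟩
    · show tent (tent (tent (2 / 7))) = 2 / 7
      norm_num [tent]
    · show ¬ tent (2 / 7) = 2 / 7
      norm_num [tent]
  rcases eq_or_ne n 3 with rfl | h
  · exact h3
  refine periods_forcing continuous_tent hn h3 ?_
  obtain ⟨l, s, hs, rfl⟩ := exists_eq hn
  rw [show 3 = 2 ^ 0 * 3 by norm_num, precedes_iff (by decide) hs]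
  refine Or.inl ⟨by norm_num, ?_⟩
  rcases Nat.eq_zero_or_pos l with rfl | hl
  · obtain ⟨c, hc⟩ := hs; simp only [pow_zero, one_mul] at h; omega
  · exact Or.inr (Or.inl hl)

/-- Largest points of `n`-cycles of the tent map. -/
def tops (n : ℕ) : Set ℝ := {x | minimalPeriod tent x = n ∧ ∀ i, tent^[i] x ≤ x}

theorem exists_top {f : ℝ → ℝ} {x : ℝ} {n : ℕ} (hn : 0 < n) (hx : minimalPeriod f x = n) :
    ∃ j, minimalPeriod f (f^[j] x) = n ∧ ∀ i, f^[i] (f^[j] x) ≤ f^[j] x := by
  obtain ⟨j, -, hj⟩ := (Finset.range n).exists_max_image (fun i => f^[i] x)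
    (Finset.nonempty_range_iff.2 hn.ne')
  refine ⟨j, (minimalPeriod_apply_iterate
    (minimalPeriod_pos_iff_mem_periodicPts.1 (hx ▸ hn)) j).trans hx, fun i => ?_⟩
  rw [← iterate_add_apply, ← iterate_mod_minimalPeriod_eq (n := i + j)]
  exact hj _ (Finset.mem_range.2 (hx ▸ Nat.mod_lt _ (hx ▸ hn)))

theorem tops_nonempty {n : ℕ} (hn : 0 < n) : (tops n).Nonempty :=
  let ⟨_, _, hx⟩ := mem_periods_tent hn
  let ⟨_, hj⟩ := exists_top hn hx
  ⟨_, hj⟩

theorem tops_finite {n : ℕ} (hn : 0 < n) : (tops n).Finite :=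
  (finite_fixed hn).subset fun _ hx => isPeriodicPt_pos hx.1

/-- The least maximum of an `n`-cycle of the tent map. -/
def height (n : ℕ) : ℝ := sInf (tops n)

theorem height_mem {n : ℕ} (hn : 0 < n) : height n ∈ tops n :=
  (tops_nonempty hn).csInf_mem (tops_finite hn)

theorem height_le {n : ℕ} (hn : 0 < n) {x : ℝ} (hx : x ∈ tops n) : height n ≤ x :=
  csInf_le (tops_finite hn).bddBelow hx

theorem height_le_one {n : ℕ} (hn : 0 < n) : height n ≤ 1 :=
  (fixed_mem_Icc hn (isPeriodicPt_pos (height_mem hn).1)).2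

theorem minimalPeriod_cut {h x : ℝ} (hx : ∀ i, tent^[i + 1] x ≤ h) :
    minimalPeriod (tentCut h) x = minimalPeriod tent x := by
  have e : ∀ i, (tentCut h)^[i] x = tent^[i] x := by
    intro i
    induction i with
    | zero => rfl
    | succ i ih =>
      have := hx i
      rw [iterate_succ_apply'] at this ⊢
      rw [ih, iterate_succ_apply', tentCut, min_eq_right this]
  exact minimalPeriod_eq_minimalPeriod_iff.2 fun n => by simp only [IsPeriodicPt, IsFixedPt, e]

theorem mem_periods_cut {h : ℝ} {n : ℕ} (hn : 0 < n) (hle : height n ≤ h) :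
    n ∈ periods (tentCut h) := by
  refine ⟨hn, height n, ?_⟩
  rw [minimalPeriod_cut fun i => ((height_mem hn).2 _).trans hle]
  exact (height_mem hn).1

/-- A period of a cut-off tent map comes from a cycle below the cut, or from the cut itself. -/
theorem periods_cut {h : ℝ} {n : ℕ} (hn : n ∈ periods (tentCut h)) :
    height n < h ∨ minimalPeriod (tentCut h) h = n := by
  obtain ⟨hn0, x, hx⟩ := hn
  have hper : x ∈ periodicPts (tentCut h) := minimalPeriod_pos_iff_mem_periodicPts.1 (hx ▸ hn0)
  by_cases hh : ∃ i, (tentCut h)^[i] x = h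
  · obtain ⟨i, hi⟩ := hh
    right
    exact (congrArg (minimalPeriod (tentCut h)) hi.symm).trans
      ((minimalPeriod_apply_iterate hper i).trans hx)
  · push Not at hh
    left
    have e : ∀ i, (tentCut h)^[i] x = tent^[i] x := by
      intro i
      induction i with
      | zero => rfl
      | succ i ih =>
        have := hh (i + 1)
        rw [iterate_succ_apply', tentCut] at this ⊢
        rw [iterate_succ_apply', ← ih]
        exact min_eq_right (not_lt.1 fun hlt => this (min_eq_left hlt.le))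
    have hT : minimalPeriod tent x = n := by
      rw [← hx]
      exact (minimalPeriod_eq_minimalPeriod_iff.2 fun k => by
        simp only [IsPeriodicPt, IsFixedPt, e]).symm
    obtain ⟨j, hj⟩ := exists_top hn0 hT
    have hlt : tent^[j] x < h := by
      have hle : (tentCut h)^[j + n] x ≤ h := by
        rw [show j + n = j + n - 1 + 1 by omega, iterate_succ_apply']
        exact min_le_left _ _
      rw [iterate_add_apply, (isPeriodicPt_pos hx).eq] at hle
      rw [← e]
      exact lt_of_le_of_ne hle (hh j)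
    exact (height_le hn0 hj).trans_lt hlt

theorem periods_cut_height {m : ℕ} (hm : 0 < m) {n : ℕ} (hn : n ∈ periods (tentCut (height m))) :
    n = m ∨ height n < height m := by
  rcases periods_cut hn with h | h
  · exact Or.inr h
  · rw [minimalPeriod_cut fun i => (height_mem hm).2 _, (height_mem hm).1] at h
    exact Or.inl h.symm

theorem height_lt {m n : ℕ} (hm : 0 < m) (hn : 0 < n) (h : Precedes m n) :
    height n < height m := by
  refine (periods_cut_height hm (periods_forcing (continuous_tentCut _) hn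
    (mem_periods_cut hm le_rfl) h)).resolve_left ?_
  rintro rfl
  exact not_precedes_self hn h

/-- **Realisation.** -/
theorem periods_tentCut {m : ℕ} (hm : 0 < m) :
    periods (tentCut (height m)) = {n | 0 < n ∧ (n = m ∨ Precedes m n)} := by
  ext n
  refine ⟨fun h => ⟨h.1, ?_⟩, fun ⟨hn, h⟩ => ?_⟩
  · rcases periods_cut_height hm h with e | e
    · exact Or.inl e
    rcases precedes_trichotomy hm h.1 with h' | h' | h'
    · exact Or.inr h'
    · exact Or.inl h'.symm
    · linarith [height_lt h.1 hm h']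
  · rcases h with rfl | h
    · exact mem_periods_cut hn le_rfl
    · exact periods_forcing (continuous_tentCut _) hn (mem_periods_cut hm le_rfl) h

/-- A continuous map with exactly the powers of two as periods. -/
theorem exists_periods_two_pow :
    ∃ f : ℝ → ℝ, Continuous f ∧ periods f = range fun k : ℕ => 2 ^ k := by
  have hbdd : BddAbove (range fun k => height (2 ^ k)) :=
    ⟨1, fun _ ⟨k, hk⟩ => hk ▸ height_le_one (by positivity)⟩
  set H := ⨆ k, height (2 ^ k)
  refine ⟨tentCut H, continuous_tentCut H, Set.ext fun n => ⟨fun h => ?_, ?_⟩⟩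
  · obtain ⟨k, r, hr, rfl⟩ := exists_eq h.1
    by_contra hne
    have hr1 : 1 < r := by
      rcases eq_or_ne r 1 with rfl | e
      · exact absurd ⟨k, by simp⟩ hne
      · have := hr.pos; omega
    have hp : ∀ k' r' : ℕ, Odd r' → 1 < r' → H ≤ height (2 ^ k' * r') := fun k' r' h1 h2 =>
      ciSup_le fun l => by
        refine (height_lt (by have := h1.pos; positivity) (by positivity) ?_).le
        rw [← mul_one (2 ^ l), precedes_iff h1 odd_one]
        exact Or.inl ⟨h2, Or.inl rfl⟩
    have hspecial : ∀ k', k ≤ k' → minimalPeriod (tentCut H) H = 2 ^ k' * r := by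
      intro k' hk'
      have hpos : 0 < 2 ^ k' * r := by positivity
      refine (periods_cut ?_).resolve_left (not_lt.2 (hp k' r hr hr1))
      rcases eq_or_lt_of_le hk' with rfl | hlt
      · exact h
      · exact periods_forcing (continuous_tentCut H) hpos h
          ((precedes_iff hr hr k k').2 (Or.inl ⟨hr1, Or.inr (Or.inl hlt)⟩))
    have e := (hspecial k le_rfl).symm.trans (hspecial (k + 1) k.le_succ)
    have := hr.pos
    have : 0 < 2 ^ k * r := by positivity
    rw [pow_succ', mul_assoc] at e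
    omega
  · rintro ⟨k, rfl⟩
    exact mem_periods_cut (by positivity) (le_ciSup hbdd k)

/-- **Classification of the sets of periods.** -/
theorem exists_periods_iff {S : Set ℕ} :
    (∃ f : ℝ → ℝ, Continuous f ∧ periods f = S) ↔
      (∀ n ∈ S, 0 < n) ∧ ∀ m ∈ S, ∀ n, 0 < n → Precedes m n → n ∈ S := by
  constructor
  · rintro ⟨f, hf, rfl⟩
    exact ⟨fun n h => h.1, fun m hm n hn h => periods_forcing hf hn hm h⟩
  rintro ⟨hpos, hdown⟩
  -- the set is empty, has a first element, or is the set of all powers of two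
  have first : ∀ m ∈ S, (∀ n ∈ S, n = m ∨ Precedes m n) →
      ∃ f : ℝ → ℝ, Continuous f ∧ periods f = S := fun m hm hfirst =>
    ⟨_, continuous_tentCut _, by
      rw [periods_tentCut (hpos m hm)]
      ext n
      exact ⟨fun ⟨hn, h⟩ => h.elim (fun e => e ▸ hm) (hdown m hm n hn), fun h =>
        ⟨hpos n h, hfirst n h⟩⟩⟩
  rcases S.eq_empty_or_nonempty with rfl | hne
  · refine ⟨fun x => x + 1, by fun_prop, eq_empty_of_forall_notMem ?_⟩
    rintro n ⟨hn, x, hx⟩
    have := (isPeriodicPt_pos hx).eq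
    rw [add_right_iterate_apply, nsmul_one] at this
    have : (n : ℝ) = 0 := by linarith
    exact hn.ne' (by exact_mod_cast this)
  by_cases hodd : ∃ k r, Odd r ∧ 1 < r ∧ 2 ^ k * r ∈ S
  · classical
    have hk := Nat.find_spec hodd
    set k := Nat.find hodd with hkdef
    obtain ⟨hr, hr1, hmem⟩ := Nat.find_spec hk
    refine first _ hmem fun n hn => ?_
    obtain ⟨l, s, hs, rfl⟩ := exists_eq (hpos n hn)
    rw [precedes_iff hr hs]
    rcases eq_or_ne s 1 with rfl | hs1
    · exact Or.inr (Or.inl ⟨hr1, Or.inl rfl⟩)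
    have hs1' : 1 < s := by have := hs.pos; omega
    rcases lt_trichotomy k l with h | rfl | h
    · exact Or.inr (Or.inl ⟨hr1, Or.inr (Or.inl h)⟩)
    · rcases (Nat.find_min' hk ⟨hs, hs1', hn⟩).eq_or_lt with e | e
      · exact Or.inl (by rw [e])
      · exact Or.inr (Or.inl ⟨hr1, Or.inr (Or.inr ⟨rfl, e⟩)⟩)
    · exact absurd ⟨s, hs, hs1', hn⟩ (Nat.find_min hodd h)
  push Not at hodd
  have hpow : ∀ n ∈ S, ∃ k, n = 2 ^ k := fun n hn => by
    obtain ⟨k, r, hr, rfl⟩ := exists_eq (hpos n hn)
    rcases eq_or_ne r 1 with rfl | h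
    · exact ⟨k, mul_one _⟩
    · exact absurd hn (hodd k r hr (by have := hr.pos; omega))
  by_cases hbdd : BddAbove S
  · obtain ⟨m, hm, hmax⟩ := (⟨sSup S, Nat.sSup_mem hne hbdd, fun n h => le_csSup hbdd h⟩ :
      ∃ m ∈ S, ∀ n ∈ S, n ≤ m)
    refine first m hm fun n hn => ?_
    obtain ⟨k, rfl⟩ := hpow m hm
    obtain ⟨l, rfl⟩ := hpow n hn
    rcases (hmax _ hn).eq_or_lt with e | e
    · exact Or.inl e
    · rw [← mul_one (2 ^ k), ← mul_one (2 ^ l), precedes_iff odd_one odd_one]
      exact Or.inr (Or.inr ⟨rfl, rfl, (Nat.pow_lt_pow_iff_right (by norm_num)).1 e⟩)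
  · obtain ⟨f, hf, hper⟩ := exists_periods_two_pow
    refine ⟨f, hf, hper.trans (Set.ext fun n => ⟨?_, fun h => ?_⟩)⟩
    · rintro ⟨l, rfl⟩
      obtain ⟨N, hN, hlN⟩ := not_bddAbove_iff.1 hbdd (2 ^ l)
      obtain ⟨k, rfl⟩ := hpow N hN
      refine hdown _ hN _ (by positivity) ?_
      show Precedes (2 ^ k) (2 ^ l)
      rw [← mul_one (2 ^ k), ← mul_one (2 ^ l), precedes_iff odd_one odd_one]
      exact Or.inr ⟨rfl, rfl, (Nat.pow_lt_pow_iff_right (by norm_num)).1 hlN⟩
    · obtain ⟨k, rfl⟩ := hpow n h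
      exact ⟨k, rfl⟩

end FA.Sharkovskii

end
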