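import Fermat.Agent.Sharkovskii.Order

/-!
# The forcing half of Sharkovskii's theorem

Du's proof: an orbit of period `m ≥ 3` gives period `2`; if `m` is odd it gives period `m + 2`, and
the square of the map has a horseshoe, so every even period occurs.
-/

set_option autoImplicit false

noncomputable section

open Function Set

namespace FA.Sharkovskii

/-- The set of least periods. -/
def periods {α : Type*} (f : α → α) : Set ℕ := {n | 0 < n ∧ ∃ x, minimalPeriod f x = n}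

theorem isPeriodicPt_pos {α : Type*} {f : α → α} {x : α} {n : ℕ} (h : minimalPeriod f x = n) :
    IsPeriodicPt f n x := h ▸ isPeriodicPt_minimalPeriod f x

theorem exists_last_eq {h : ℝ → ℝ} (hc : Continuous h) {a b c : ℝ} (hab : a ≤ b) (ha : c ≤ h a)
    (hb : h b ≤ c) : ∃ y ∈ Icc a b, h y = c ∧ ∀ t ∈ Ioc y b, h t < c := by
  obtain ⟨y, ⟨hy, hy'⟩, hmax⟩ :=
    (isCompact_Icc.inter_right (isClosed_eq hc continuous_const)).exists_isGreatest
      (s := Icc a b ∩ {t | h t = c})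
      (intermediate_value_Icc' hab hc.continuousOn ⟨hb, ha⟩)
  refine ⟨y, hy, hy', fun t ht => not_le.1 fun hle => ?_⟩
  obtain ⟨u, hu, hu'⟩ := intermediate_value_Icc' ht.2 hc.continuousOn ⟨hb, hle⟩
  have := hmax ⟨⟨by linarith [hy.1, ht.1, hu.1], hu.2⟩, hu'⟩
  linarith [ht.1, hu.1]

theorem exists_first_eq {h : ℝ → ℝ} (hc : Continuous h) {a b c : ℝ} (hab : a ≤ b) (ha : h a ≤ c)
    (hb : c ≤ h b) : ∃ y ∈ Icc a b, h y = c ∧ ∀ t ∈ Ico a y, h t < c := by
  obtain ⟨y, hy, hy', hlast⟩ := exists_last_eq (h := fun t => h (-t)) (hc.comp continuous_neg)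
    (neg_le_neg hab) (by simpa using hb) (by simpa using ha)
  refine ⟨-y, ⟨by linarith [hy.2], by linarith [hy.1]⟩, hy', fun t ht => ?_⟩
  simpa using hlast (-t) ⟨by linarith [ht.2], by linarith [ht.1]⟩

/-- A continuous map with a periodic point has a fixed point. -/
theorem one_mem_periods {f : ℝ → ℝ} (hf : Continuous f) {n : ℕ} (hn : n ∈ periods f) :
    1 ∈ periods f := by
  obtain ⟨hn0, x, hx⟩ := hn
  have hp : f^[n] x = x := isPeriodicPt_pos hx
  refine ⟨one_pos, ?_⟩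
  simp only [minimalPeriod_eq_one_iff_isFixedPt]
  by_contra hne
  push Not at hne
  have hne' : ∀ t, f t - t ≠ 0 := fun t e => hne t (sub_eq_zero.1 e)
  have hsign : (∀ t, 0 < f t - t) ∨ ∀ t, f t - t < 0 := by
    by_contra hcon
    push Not at hcon
    obtain ⟨⟨s, hs⟩, t, ht⟩ := hcon
    obtain ⟨u, -, hu⟩ := intermediate_value_uIcc (a := s) (b := t)
      (hf.sub continuous_id).continuousOn (show (0 : ℝ) ∈ uIcc _ _ from mem_uIcc_of_le hs ht)
    exact hne' u hu
  rcases hsign with h | h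
  · have hm : StrictMono fun i => f^[i] x := strictMono_nat_of_lt_succ fun i => by
      simp only [iterate_succ_apply']; linarith [h (f^[i] x)]
    exact absurd (hm hn0) (by simp [hp])
  · have hm : StrictAnti fun i => f^[i] x := strictAnti_nat_of_succ_lt fun i => by
      simp only [iterate_succ_apply']; linarith [h (f^[i] x)]
    exact absurd (hm hn0) (by simp [hp])

/-- The points cut out by an orbit of period `m ≥ 3`. -/
structure Landmarks (f : ℝ → ℝ) (m : ℕ) where
  /-- the least point of the orbit -/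
  a : ℝ
  y : ℝ
  v : ℝ
  z : ℝ
  xs : ℝ
  per : minimalPeriod f xs = m
  reach : ∃ j, f^[j] a = xs
  min_orbit : ∀ j, a ≤ f^[j] a
  a_le : a ≤ y
  y_lt : y < v
  v_lt : v < z
  z_lt : z < xs
  map_v : f v = xs
  map_z : f z = z
  map_xs : f xs < v
  two_y : f (f y) = y
  below : ∀ t ∈ Ioc y v, f (f t) < t
  above : ∀ t ∈ Icc y v, z < f t

theorem landmarks_nonempty {f : ℝ → ℝ} (hf : Continuous f) {m : ℕ} (hm : 3 ≤ m)
    (h : m ∈ periods f) : Nonempty (Landmarks f m) := by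
  obtain ⟨-, x, hx⟩ := h
  have hper : x ∈ periodicPts f := minimalPeriod_pos_iff_mem_periodicPts.1 (by omega)
  set P := (Finset.range m).image fun i => f^[i] x with hP
  have hmem : ∀ i, f^[i] x ∈ P := fun i => Finset.mem_image.2
    ⟨i % m, Finset.mem_range.2 (Nat.mod_lt _ (by omega)),
      by rw [← hx, iterate_mod_minimalPeriod_eq]⟩
  have hmp : ∀ p ∈ P, minimalPeriod f p = m ∧ f p ∈ P := fun p hp => by
    obtain ⟨i, -, rfl⟩ := Finset.mem_image.1 hp
    exact ⟨(minimalPeriod_apply_iterate hper i).trans hx, by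
      rw [← iterate_succ_apply' f i x]; exact hmem _⟩
  have hne : ∀ p ∈ P, f p ≠ p ∧ f (f p) ≠ p := fun p hp => by
    constructor <;> intro e
    · have := IsPeriodicPt.minimalPeriod_le one_pos (show IsPeriodicPt f 1 p from e)
      have := (hmp p hp).1; omega
    · have := IsPeriodicPt.minimalPeriod_le two_pos (show IsPeriodicPt f 2 p from e)
      have := (hmp p hp).1; omega
  have hPne : P.Nonempty := ⟨x, hmem 0⟩
  set a := P.min' hPne with ha
  have haP : a ∈ P := Finset.min'_mem _ _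
  have hlt : ∀ p ∈ P, p ≠ a → a < p := fun p hp he => lt_of_le_of_ne (P.min'_le p hp) (Ne.symm he)
  have hfa : a < f a := hlt _ (hmp _ haP).2 (hne _ haP).1
  set Q := P.filter fun p => f p < p
  have hQne : Q.Nonempty := ⟨P.max' hPne, Finset.mem_filter.2 ⟨Finset.max'_mem _ _,
    lt_of_le_of_ne (P.le_max' _ (hmp _ (Finset.max'_mem _ _)).2) (hne _ (Finset.max'_mem _ _)).1⟩⟩
  set xs := Q.min' hQne
  obtain ⟨hxsP, hxslt⟩ := Finset.mem_filter.1 (Q.min'_mem hQne)
  set R := P.filter fun p => p < xs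
  have hRne : R.Nonempty := ⟨f xs, Finset.mem_filter.2 ⟨(hmp _ hxsP).2, hxslt⟩⟩
  set x' := R.max' hRne
  obtain ⟨hx'P, hx'lt⟩ := Finset.mem_filter.1 (R.max'_mem hRne)
  have hx'up : x' < f x' := by
    refine lt_of_le_of_ne (not_lt.1 fun hcon => ?_) (hne _ hx'P).1.symm
    exact absurd (Q.min'_le x' (Finset.mem_filter.2 ⟨hx'P, hcon⟩)) (not_le.2 hx'lt)
  have hx'up' : xs ≤ f x' := not_lt.1 fun hcon =>
    absurd (R.le_max' _ (Finset.mem_filter.2 ⟨(hmp _ hx'P).2, hcon⟩)) (not_le.2 hx'up)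
  have hfxs : f xs ≤ x' := R.le_max' _ (Finset.mem_filter.2 ⟨(hmp _ hxsP).2, hxslt⟩)
  obtain ⟨z, hz, hz'⟩ := intermediate_value_Icc' hx'lt.le (hf.sub continuous_id).continuousOn
    (show (0 : ℝ) ∈ Icc (f xs - xs) (f x' - x') from ⟨by linarith, by linarith⟩)
  have hzfix : f z = z := sub_eq_zero.1 hz'
  have hzlt : z < xs := lt_of_le_of_ne hz.2 fun e => (hne _ hxsP).1 (by
    simp only [e] at hzfix; exact hzfix)
  obtain ⟨v, hv, hv'⟩ := intermediate_value_Icc' hz.1 hf.continuousOn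
    (show xs ∈ Icc (f z) (f x') from ⟨by linarith, hx'up'⟩)
  have hvz : v < z := lt_of_le_of_ne hv.2 fun e => by rw [e, hzfix] at hv'; linarith
  have hfv : f xs < v := lt_of_le_of_ne (hfxs.trans hv.1) fun e =>
    (hne _ hxsP).2 (by rw [e, hv'])
  have hav : a ≤ v := (P.min'_le x' hx'P).trans hv.1
  obtain ⟨y, hy, hy', hlast⟩ := exists_last_eq ((hf.comp hf).sub continuous_id) (c := 0) hav
    (show (0 : ℝ) ≤ f (f a) - a by
      linarith [hlt _ (hmp _ (hmp _ haP).2).2 (hne _ haP).2])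
    (show f (f v) - v ≤ 0 by rw [hv']; linarith)
  have hyv : y < v := lt_of_le_of_ne hy.2 fun e => by
    rw [e] at hy'
    change f (f v) - v = 0 at hy'
    rw [hv'] at hy'
    linarith
  have hbelow : ∀ t ∈ Ioc y v, f (f t) < t := fun t ht => sub_neg.1 (hlast t ht)
  have htwo : f (f y) = y := sub_eq_zero.1 hy'
  refine ⟨⟨a, y, v, z, xs, (hmp _ hxsP).1, ?_, ?_, hy.1, hyv, hvz, hzlt, hv', hzfix, hfv, htwo,
    hbelow, fun t ht => not_le.1 fun hcon => ?_⟩⟩
  · obtain ⟨i, hi, hia⟩ := Finset.mem_image.1 haP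
    obtain ⟨j, -, hj⟩ := Finset.mem_image.1 hxsP
    refine ⟨j + (m - i), ?_⟩
    have := Finset.mem_range.1 hi
    rw [← hia, ← iterate_add_apply, show j + (m - i) + i = j + m by omega,
      iterate_add_apply, (isPeriodicPt_pos hx).eq]
    exact hj
  · intro j
    obtain ⟨i, -, hia⟩ := Finset.mem_image.1 haP
    refine P.min'_le _ ?_
    conv => arg 2; rw [← hia, ← iterate_add_apply]
    exact hmem _
  · obtain ⟨u, hu, hu'⟩ := intermediate_value_Icc ht.2 hf.continuousOn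
      (show z ∈ Icc (f t) (f v) from ⟨hcon, by rw [hv']; exact hzlt.le⟩)
    rcases eq_or_lt_of_le (ht.1.trans hu.1) with e | e
    · rw [← e] at hu'
      rw [hu', hzfix] at htwo
      linarith
    · have := hbelow u ⟨e, hu.2⟩
      rw [hu', hzfix] at this
      linarith [hu.2]

/-- Period `m ≥ 3` forces period `2`. -/
theorem two_mem_periods {f : ℝ → ℝ} (hf : Continuous f) {m : ℕ} (hm : 3 ≤ m)
    (h : m ∈ periods f) : 2 ∈ periods f := by
  obtain ⟨L⟩ := landmarks_nonempty hf hm h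
  have hne : f L.y ≠ L.y := by
    have := L.above L.y ⟨le_rfl, L.y_lt.le⟩
    linarith [L.y_lt, L.v_lt]
  exact ⟨two_pos, L.y, minimalPeriod_eq_prime (p := 2) L.two_y hne⟩

theorem Landmarks.iterate_odd_y {f : ℝ → ℝ} {m : ℕ} (L : Landmarks f m) (i : ℕ) :
    f^[2 * i + 1] L.y = f L.y := by
  rw [iterate_succ_apply', iterate_mul, show f^[2] = fun t => f (f t) from rfl,
    iterate_fixed (f := fun t => f (f t)) L.two_y]

/-- Odd period `m ≥ 3` forces period `m + 2`. -/
theorem add_two_mem_periods {f : ℝ → ℝ} (hf : Continuous f) {m : ℕ} (hm : 3 ≤ m) (hodd : Odd m)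
    (h : m ∈ periods f) : m + 2 ∈ periods f := by
  obtain ⟨L⟩ := landmarks_nonempty hf hm h
  obtain ⟨i, hi⟩ := hodd
  have hy : L.y < f L.y := by linarith [L.above L.y ⟨le_rfl, L.y_lt.le⟩, L.y_lt, L.v_lt]
  have hFy : f^[m + 2] L.y = f L.y := by
    rw [show m + 2 = 2 * (i + 1) + 1 by omega, L.iterate_odd_y]
  have hFv : f^[m + 2] L.v < L.v := by
    rw [show m + 2 = (1 + m) + 1 by omega, iterate_succ_apply, L.map_v, iterate_add_apply,
      (isPeriodicPt_pos L.per).eq]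
    exact L.map_xs
  obtain ⟨p, hp, hp', hfirst⟩ := exists_first_eq (continuous_id.sub (hf.iterate (m + 2)))
    L.y_lt.le (c := 0) (show L.y - f^[m + 2] L.y ≤ 0 by rw [hFy]; linarith)
    (show (0 : ℝ) ≤ L.v - f^[m + 2] L.v by linarith)
  have hpfix : f^[m + 2] p = p := (sub_eq_zero.1 hp').symm
  have hyp : L.y < p := lt_of_le_of_ne hp.1 fun e => by rw [← e, hFy] at hpfix; linarith
  refine ⟨by omega, p, ?_⟩
  set k := minimalPeriod f p with hk
  have hdvd : k ∣ m + 2 := IsPeriodicPt.minimalPeriod_dvd hpfix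
  by_contra hne
  have hklt : k < m + 2 := lt_of_le_of_ne (Nat.le_of_dvd (by omega) hdvd) hne
  have hkodd : Odd k := Odd.of_dvd_nat (n := m + 2) ⟨i + 1, by omega⟩ hdvd
  have key : ∀ j, ∃ q ∈ Ioc L.y p, f^[k + 2 * j] q = q ∧ (1 ≤ j → q < p) := by
    intro j
    induction j with
    | zero => exact ⟨p, ⟨hyp, le_rfl⟩, isPeriodicPt_minimalPeriod f p, fun h => absurd h (by omega)⟩
    | succ j ih =>
      obtain ⟨q, hq, hq', -⟩ := ih
      obtain ⟨l, hl⟩ := hkodd
      have h1 : f^[k + 2 * (j + 1)] L.y = f L.y := by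
        rw [show k + 2 * (j + 1) = 2 * (l + j + 1) + 1 by omega, L.iterate_odd_y]
      have h2 : f^[k + 2 * (j + 1)] q < q := by
        rw [show k + 2 * (j + 1) = 2 + (k + 2 * j) by omega, iterate_add_apply, hq']
        exact L.below q ⟨hq.1, hq.2.trans hp.2⟩
      obtain ⟨r, hr, hr'⟩ := intermediate_value_Ioo' hq.1.le
        ((hf.iterate (k + 2 * (j + 1))).sub continuous_id).continuousOn
        (show (0 : ℝ) ∈ Ioo (f^[k + 2 * (j + 1)] q - q) (f^[k + 2 * (j + 1)] L.y - L.y) from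
          ⟨by linarith, by rw [h1]; linarith⟩)
      exact ⟨r, ⟨hr.1, hr.2.le.trans hq.2⟩, sub_eq_zero.1 hr', fun _ => hr.2.trans_le hq.2⟩
  obtain ⟨l, hl⟩ := hkodd
  obtain ⟨q, hq, hq', hlt⟩ := key (i + 1 - l)
  rw [show k + 2 * (i + 1 - l) = m + 2 by omega] at hq'
  have := hfirst q ⟨hq.1.le, hlt (by omega)⟩
  change q - f^[m + 2] q < 0 at this
  linarith

/-- A subinterval with a prescribed image. -/
theorem exists_sub_interval {g : ℝ → ℝ} (hg : Continuous g) {s t : ℝ} :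
    ∃ α ∈ uIcc s t, ∃ β ∈ uIcc s t, g α = g s ∧ g β = g t ∧
      ∀ u ∈ uIcc α β, g u ∈ uIcc (g s) (g t) := by
  have key : ∀ (h : ℝ → ℝ), Continuous h → ∀ s t : ℝ, s ≤ t → h s ≤ h t →
      ∃ α ∈ Icc s t, ∃ β ∈ Icc α t, h α = h s ∧ h β = h t ∧
        ∀ u ∈ Icc α β, h u ∈ Icc (h s) (h t) := by
    intro h hc s t hst hle
    obtain ⟨β, hβ, hβ', hb⟩ := exists_first_eq hc hst hle le_rfl
    obtain ⟨α, hα, hα', ha⟩ := exists_last_eq hc.neg hβ.1 (c := -h s) le_rfl (by
      show -h β ≤ -h s; rw [hβ']; linarith)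
    refine ⟨α, ⟨hα.1, hα.2.trans hβ.2⟩, β, ⟨hα.2, hβ.2⟩, neg_injective hα', hβ',
      fun u hu => ⟨?_, ?_⟩⟩
    · rcases eq_or_lt_of_le hu.1 with e | e
      · rw [← e]; exact (neg_injective hα').ge
      · exact neg_le_neg_iff.1 (ha u ⟨e, hu.2⟩).le
    · rcases eq_or_lt_of_le hu.2 with e | e
      · rw [e]; exact hβ'.le
      · exact (hb u ⟨hα.1.trans hu.1, e⟩).le
  have key' : ∀ s t : ℝ, s ≤ t → ∃ α ∈ Icc s t, ∃ β ∈ Icc α t, g α = g s ∧ g β = g t ∧
      ∀ u ∈ Icc α β, g u ∈ uIcc (g s) (g t) := by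
    intro s t hst
    rcases le_total (g s) (g t) with hle | hle
    · obtain ⟨α, hα, β, hβ, h1, h2, h3⟩ := key g hg s t hst hle
      exact ⟨α, hα, β, hβ, h1, h2, fun u hu => Icc_subset_uIcc (h3 u hu)⟩
    · obtain ⟨α, hα, β, hβ, h1, h2, h3⟩ := key (fun u => -g u) hg.neg s t hst (neg_le_neg hle)
      exact ⟨α, hα, β, hβ, neg_injective h1, neg_injective h2, fun u hu =>
        Icc_subset_uIcc' ⟨neg_le_neg_iff.1 (h3 u hu).2, neg_le_neg_iff.1 (h3 u hu).1⟩⟩
  rcases le_total s t with hst | hst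
  · obtain ⟨α, hα, β, hβ, h1, h2, h3⟩ := key' s t hst
    exact ⟨α, Icc_subset_uIcc hα, β, Icc_subset_uIcc ⟨hα.1.trans hβ.1, hβ.2⟩, h1, h2,
      fun u hu => h3 u (by rwa [uIcc_of_le hβ.1] at hu)⟩
  · obtain ⟨α, hα, β, hβ, h1, h2, h3⟩ := key' t s hst
    exact ⟨β, Icc_subset_uIcc' ⟨hα.1.trans hβ.1, hβ.2⟩, α, Icc_subset_uIcc' hα, h2, h1,
      fun u hu => by
        rw [uIcc_comm, uIcc_of_le hβ.1] at hu
        rw [uIcc_comm]; exact h3 u hu⟩

/-- A horseshoe has periodic points of every period staying inside it. -/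
theorem horseshoe {g : ℝ → ℝ} (hg : Continuous g) {d w z₀ : ℝ} (hdw : d < w) (hwz : w < z₀)
    (hd : g d = z₀) (hw : g w < d) (hz : g z₀ = z₀) {n : ℕ} (hn : 1 ≤ n) :
    ∃ p, minimalPeriod g p = n ∧ ∀ i, g^[i] p ∈ Ioo d z₀ := by
  rcases eq_or_lt_of_le hn with rfl | hn2
  · obtain ⟨p, hp, hp'⟩ := intermediate_value_Ioo' hdw.le (hg.sub continuous_id).continuousOn
      (show (0 : ℝ) ∈ Ioo (g w - w) (g d - d) from ⟨by linarith, by linarith⟩)
    have e : g p = p := sub_eq_zero.1 hp'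
    exact ⟨p, minimalPeriod_eq_one_iff_isFixedPt.2 e, fun i => by
      rw [iterate_fixed e]; exact ⟨hp.1, hp.2.trans hwz⟩⟩
  -- every subinterval of `[d, z₀]` has a preimage in each branch
  have pull : ∀ s t : ℝ, g s ≤ d → g t = z₀ → ∀ α β : ℝ, α ∈ Icc d z₀ → β ∈ Icc d z₀ →
      ∃ α' ∈ uIcc s t, ∃ β' ∈ uIcc s t, g α' = α ∧ g β' = β ∧
        ∀ u ∈ uIcc α' β', g u ∈ uIcc α β := by
    intro s t hs ht α β hα hβ
    have sub : Icc d z₀ ⊆ g '' uIcc s t := by
      refine subset_trans ?_ (intermediate_value_uIcc hg.continuousOn)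
      rw [ht]
      exact fun u hu => Icc_subset_uIcc ⟨hs.trans hu.1, hu.2⟩
    obtain ⟨a, ha, rfl⟩ := sub hα
    obtain ⟨b, hb, rfl⟩ := sub hβ
    obtain ⟨α', h1, β', h2, h3, h4, h5⟩ := exists_sub_interval hg (s := a) (t := b)
    have := uIcc_subset_uIcc ha hb
    exact ⟨α', this h1, β', this h2, h3, h4, h5⟩
  have chain : ∀ j, ∃ α ∈ Icc d z₀, ∃ β ∈ Icc d z₀, g^[j] α = d ∧ g^[j] β = z₀ ∧
      ∀ u ∈ uIcc α β, ∀ i < j, g^[i] u ∈ Icc w z₀ := by
    intro j
    induction j with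
    | zero =>
      exact ⟨d, left_mem_Icc.2 (hdw.trans hwz).le, z₀, right_mem_Icc.2 (hdw.trans hwz).le, rfl,
        rfl, fun _ _ i hi => absurd hi (by omega)⟩
    | succ j ih =>
      obtain ⟨α, hα, β, hβ, h1, h2, h3⟩ := ih
      obtain ⟨α', ha, β', hb, e1, e2, hsub⟩ := pull w z₀ hw.le hz α β hα hβ
      rw [uIcc_of_le hwz.le] at ha hb
      refine ⟨α', ⟨hdw.le.trans ha.1, ha.2⟩, β', ⟨hdw.le.trans hb.1, hb.2⟩,
        by rw [iterate_succ_apply, e1, h1], by rw [iterate_succ_apply, e2, h2], fun u hu i hi => ?_⟩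
      rcases i with _ | i
      · exact uIcc_subset_Icc ha hb hu
      · rw [iterate_succ_apply]; exact h3 _ (hsub u hu) i (by omega)
  obtain ⟨α, hα, β, hβ, h1, h2, h3⟩ := chain (n - 1)
  obtain ⟨α', ha, β', hb, e1, e2, hsub⟩ := pull w d hw.le hd α β hα hβ
  rw [uIcc_of_ge hdw.le] at ha hb
  have ea : g^[n] α' = d := by
    rw [show n = n - 1 + 1 by omega, iterate_succ_apply, e1, h1]
  have eb : g^[n] β' = z₀ := by
    rw [show n = n - 1 + 1 by omega, iterate_succ_apply, e2, h2]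
  obtain ⟨p, hp, hp'⟩ := intermediate_value_uIcc (a := α') (b := β')
    ((hg.iterate n).sub continuous_id).continuousOn
    (show (0 : ℝ) ∈ uIcc (g^[n] α' - α') (g^[n] β' - β') from
      mem_uIcc_of_le (by rw [ea]; linarith [ha.1]) (by rw [eb]; linarith [hb.2]))
  have hfix : g^[n] p = p := sub_eq_zero.1 hp'
  have hpI : p ∈ Icc d w := uIcc_subset_Icc ha hb hp
  have hlater : ∀ i, 1 ≤ i → i < n → g^[i] p ∈ Icc w z₀ := fun i h1 h2 => by
    rw [show i = i - 1 + 1 by omega, iterate_succ_apply]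
    exact h3 _ (hsub p hp) (i - 1) (by omega)
  have hpw : p < w := lt_of_le_of_ne hpI.2 fun e => by
    have h := (hlater 1 le_rfl hn2).1
    rw [iterate_one, e] at h
    linarith
  have hmin : minimalPeriod g p = n := by
    refine le_antisymm (IsPeriodicPt.minimalPeriod_le (by omega) hfix) (not_lt.1 fun hlt => ?_)
    have h0 : 0 < minimalPeriod g p := IsPeriodicPt.minimalPeriod_pos (n := n) (by omega) hfix
    have h := (hlater _ h0 hlt).1
    rw [(isPeriodicPt_minimalPeriod g p).eq] at h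
    linarith
  refine ⟨p, hmin, fun i => ?_⟩
  have hmem : g^[i] p ∈ Icc d z₀ := by
    have e : g^[i] p = g^[i % n] p := by rw [← hmin, iterate_mod_minimalPeriod_eq]
    rw [e]
    rcases Nat.eq_zero_or_pos (i % n) with h0 | h0
    · rw [h0]; exact ⟨hpI.1, hpI.2.trans hwz.le⟩
    · have := hlater _ h0 (Nat.mod_lt _ (by omega))
      exact ⟨hdw.le.trans this.1, this.2⟩
  have back : g^[i] p ≠ z₀ := fun e => by
    have h := congrArg (g^[i * n - i]) e
    rw [iterate_fixed hz, ← iterate_add_apply,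
      Nat.sub_add_cancel (Nat.le_mul_of_pos_right i (by omega)),
      ((show IsPeriodicPt g n p from hfix).const_mul i).eq] at h
    linarith
  refine ⟨lt_of_le_of_ne hmem.1 fun e => ?_, lt_of_le_of_ne hmem.2 back⟩
  have h := congrArg (g^[(i + 1) * n - i]) e.symm
  rw [← iterate_add_apply, Nat.sub_add_cancel (by nlinarith),
    ((show IsPeriodicPt g n p from hfix).const_mul (i + 1)).eq,
    show (i + 1) * n - i = (i + 1) * n - i - 1 + 1 by
      have : i + 1 ≤ (i + 1) * n := Nat.le_mul_of_pos_right _ (by omega)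
      omega,
    iterate_succ_apply, hd, iterate_fixed hz] at h
  linarith

/-- Odd period `m ≥ 3` forces every even period. -/
theorem two_mul_mem_periods {f : ℝ → ℝ} (hf : Continuous f) {m : ℕ} (hm : 3 ≤ m) (hodd : Odd m)
    (h : m ∈ periods f) {n : ℕ} (hn : 1 ≤ n) : 2 * n ∈ periods f := by
  obtain ⟨L⟩ := landmarks_nonempty hf hm h
  obtain ⟨i, hi⟩ := hodd
  set g : ℝ → ℝ := fun t => f (f t) with hgdef
  have hg : Continuous g := hf.comp hf
  have hg2 : f^[2] = g := rfl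
  obtain ⟨z₀, hz₀, hz₀', hfirst⟩ := exists_first_eq (hg.sub continuous_id) (c := 0) L.v_lt.le
    (show f (f L.v) - L.v ≤ 0 by rw [L.map_v]; linarith [L.map_xs])
    (show (0 : ℝ) ≤ f (f L.z) - L.z by rw [L.map_z, L.map_z, sub_self])
  have hgz : g z₀ = z₀ := sub_eq_zero.1 hz₀'
  have hvz₀ : L.v < z₀ := lt_of_le_of_ne hz₀.1 fun e => by
    rw [← e, hgdef] at hgz
    change f (f L.v) = L.v at hgz
    rw [L.map_v] at hgz
    linarith [L.map_xs]
  have hlow : ∀ t ∈ Ioo L.y z₀, g t < t := fun t ht => by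
    rcases le_or_gt t L.v with h1 | h1
    · exact L.below t ⟨ht.1, h1⟩
    · exact sub_neg.1 (hfirst t ⟨h1.le, ht.2⟩)
  obtain ⟨u, hu, hu'⟩ : ∃ u ∈ Icc L.a L.y, z₀ ≤ g u := by
    by_contra hcon
    push Not at hcon
    have hall : ∀ j, f^[2 * j] L.a < z₀ := by
      intro j
      induction j with
      | zero => simpa using (L.a_le.trans_lt L.y_lt).trans hvz₀
      | succ j ih =>
        rw [show 2 * (j + 1) = 2 + 2 * j by omega, iterate_add_apply, hg2]
        rcases le_or_gt (f^[2 * j] L.a) L.y with h1 | h1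
        · exact hcon _ ⟨L.min_orbit _, h1⟩
        · exact (hlow _ ⟨h1, ih⟩).trans ih
    obtain ⟨j, hj⟩ := L.reach
    rcases Nat.even_or_odd j with ⟨c, hc⟩ | ⟨c, hc⟩
    · have := hall c
      rw [show 2 * c = j by omega, hj] at this
      linarith [hz₀.2, L.z_lt]
    · have := hall (c + i + 1)
      rw [show 2 * (c + i + 1) = m + j by omega, iterate_add_apply, hj,
        (isPeriodicPt_pos L.per).eq] at this
      linarith [hz₀.2, L.z_lt]
  obtain ⟨d, hd, hgd, hdlast⟩ := exists_last_eq hg (c := z₀) hu.2 hu' (by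
    show f (f L.y) ≤ z₀; linarith [L.two_y, L.y_lt])
  have hdy : d < L.y := lt_of_le_of_ne hd.2 fun e => by
    rw [e] at hgd
    change f (f L.y) = z₀ at hgd
    linarith [L.two_y, L.y_lt]
  have hlt : ∀ t ∈ Ioo d z₀, g t < z₀ := fun t ht => by
    rcases le_or_gt t L.y with h1 | h1
    · exact hdlast t ⟨ht.1, h1⟩
    · exact (hlow t ⟨h1, ht.2⟩).trans ht.2
  have hjump : ∀ t ∈ Ioo d z₀, L.z < f t := fun t ht => not_le.1 fun hcon => by
    have hy := L.above L.y ⟨le_rfl, L.y_lt.le⟩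
    obtain ⟨s, hs, hs'⟩ := intermediate_value_uIcc (a := t) (b := L.y) hf.continuousOn
      (show L.z ∈ uIcc (f t) (f L.y) from mem_uIcc_of_le hcon hy.le)
    have hsI : s ∈ Ioo d z₀ := by
      rcases le_total t L.y with h1 | h1
      · rw [uIcc_of_le h1] at hs
        exact ⟨ht.1.trans_le hs.1, hs.2.trans_lt (L.y_lt.trans hvz₀)⟩
      · rw [uIcc_of_ge h1] at hs
        exact ⟨hdy.trans_le hs.1, hs.2.trans_lt ht.2⟩
    have := hlt s hsI
    simp only [hgdef, hs', L.map_z] at this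
    linarith [hz₀.2]
  obtain ⟨w, hw, hgw⟩ : ∃ w ∈ Ioo d z₀, g w < d := by
    by_contra hcon
    push Not at hcon
    have inv : ∀ t ∈ Icc d z₀, g t ∈ Icc d z₀ := fun t ht => by
      rcases eq_or_lt_of_le ht.1 with e | e
      · rw [← e, hgd]; exact right_mem_Icc.2 (ht.1.trans ht.2)
      rcases eq_or_lt_of_le ht.2 with e' | e'
      · rw [e', hgz]; exact right_mem_Icc.2 (ht.1.trans ht.2)
      exact ⟨hcon t ⟨e, e'⟩, (hlt t ⟨e, e'⟩).le⟩
    have := (MapsTo.iterate (fun t ht => inv t ht) (i + 1))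
      (show L.v ∈ Icc d z₀ from ⟨(hdy.trans L.y_lt).le, hvz₀.le⟩)
    rw [← hg2, ← iterate_mul, show 2 * (i + 1) = m + 1 by omega, iterate_succ_apply, L.map_v,
      (isPeriodicPt_pos L.per).eq] at this
    linarith [this.2, hz₀.2, L.z_lt]
  obtain ⟨p, hp, horb⟩ := horseshoe hg hw.1 hw.2 hgd hgw hgz hn
  refine ⟨by omega, p, ?_⟩
  have hper : IsPeriodicPt f (2 * n) p := by
    show f^[2 * n] p = p
    rw [iterate_mul, hg2]; exact hp ▸ isPeriodicPt_minimalPeriod g p
  set k := minimalPeriod f p with hk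
  have hkd : k ∣ 2 * n := hper.minimalPeriod_dvd
  rcases Nat.even_or_odd k with ⟨c, hc⟩ | ⟨c, hc⟩
  · have : IsPeriodicPt g c p := by
      show g^[c] p = p
      rw [← hg2, ← iterate_mul, show 2 * c = k by omega]
      exact isPeriodicPt_minimalPeriod f p
    have h1 : n ∣ c := hp ▸ this.minimalPeriod_dvd
    exact Nat.dvd_antisymm hkd (by rw [show k = 2 * c by omega]; exact Nat.mul_dvd_mul_left 2 h1)
  · exfalso
    have e : f^[k] p = p := isPeriodicPt_minimalPeriod f p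
    rw [hc, show 2 * c + 1 = 1 + 2 * c by ring, iterate_add_apply, iterate_one, iterate_mul,
      hg2] at e
    have := hjump _ (horb c)
    have h0 : p < z₀ := (horb 0).2
    linarith [hz₀.2]

theorem minimalPeriod_sq {f : ℝ → ℝ} (x : ℝ) :
    minimalPeriod f^[2] x = minimalPeriod f x / Nat.gcd (minimalPeriod f x) 2 :=
  minimalPeriod_iterate_eq_div_gcd two_ne_zero

theorem periods_sq_of {f : ℝ → ℝ} {n : ℕ} (h : 2 * n ∈ periods f) : n ∈ periods f^[2] := by
  obtain ⟨h0, x, hx⟩ := h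
  refine ⟨by omega, x, ?_⟩
  rw [minimalPeriod_sq, hx, show Nat.gcd (2 * n) 2 = 2 from Nat.gcd_mul_right_left _ _]
  omega

theorem periods_of_sq {f : ℝ → ℝ} {n : ℕ} (h : n ∈ periods f^[2]) :
    2 * n ∈ periods f ∨ (Odd n ∧ n ∈ periods f) := by
  obtain ⟨h0, x, hx⟩ := h
  rw [minimalPeriod_sq] at hx
  set k := minimalPeriod f x with hk
  rcases Nat.even_or_odd k with hke | hko
  · rw [Nat.gcd_eq_right hke.two_dvd] at hx
    obtain ⟨c, hc⟩ := hke
    exact Or.inl ⟨by omega, x, by omega⟩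
  · rw [(Nat.coprime_two_right.2 hko : Nat.gcd k 2 = 1), Nat.div_one] at hx
    exact Or.inr ⟨hx ▸ hko, h0, x, hk ▸ hx⟩

/-- **Forcing.** -/
theorem periods_forcing {f : ℝ → ℝ} (hf : Continuous f) {m n : ℕ} (hn : 0 < n)
    (hm : m ∈ periods f) (hmn : Precedes m n) : n ∈ periods f := by
  obtain ⟨k, r, hr, rfl⟩ := exists_eq hm.1
  induction k generalizing f n with
  | zero =>
    obtain ⟨l, s, hs, rfl⟩ := exists_eq hn
    rw [precedes_iff hr hs] at hmn
    have hr3 : 3 ≤ r := by obtain ⟨c, rfl⟩ := hr; omega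
    have hr' : r ∈ periods f := by simpa using hm
    rcases Nat.eq_zero_or_pos l with rfl | hl
    · simp only [pow_zero, one_mul] at hn ⊢
      rcases (show s = 1 ∨ r < s by omega) with rfl | hrs
      · exact one_mem_periods hf hr'
      have key : ∀ j, r + 2 * j ∈ periods f := fun j => by
        induction j with
        | zero => simpa using hr'
        | succ j ih =>
          rw [show r + 2 * (j + 1) = r + 2 * j + 2 by ring]
          exact add_two_mem_periods hf (by omega) (by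
            obtain ⟨c, hc⟩ := hr; exact ⟨c + j, by omega⟩) ih
      obtain ⟨c, hc⟩ := hr
      obtain ⟨c', hc'⟩ := hs
      have := key (c' - c)
      rwa [show r + 2 * (c' - c) = s by omega] at this
    · rw [show 2 ^ l * s = 2 * (2 ^ (l - 1) * s) by
        rw [← mul_assoc, ← pow_succ', Nat.sub_add_cancel hl]]
      exact two_mul_mem_periods hf hr3 hr hr' (Nat.one_le_iff_ne_zero.2 (by
        have := hs.pos; positivity))
  | succ k ih =>
    rcases eq_or_ne n 1 with rfl | hn1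
    · exact one_mem_periods hf hm
    obtain ⟨l, s, hs, rfl⟩ := exists_eq hn
    rw [precedes_iff hr hs] at hmn
    rcases Nat.eq_zero_or_pos l with rfl | hl
    · simp only [pow_zero, one_mul] at hn1
      have := hs.pos
      omega
    have hm3 : 3 ≤ 2 ^ (k + 1) * r := by
      rcases (show 1 < r ∨ 1 ≤ k by omega) with h | h
      · exact (Nat.mul_le_mul (Nat.le_self_pow (by omega) 2) h).trans' (by omega)
      · calc 3 ≤ 2 ^ 2 * 1 := by norm_num
          _ ≤ _ := Nat.mul_le_mul (Nat.pow_le_pow_right two_pos (by omega)) hr.pos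
    obtain ⟨l', rfl⟩ : ∃ l', l = l' + 1 := ⟨l - 1, by omega⟩
    have hsq : 2 ^ k * r ∈ periods f^[2] :=
      periods_sq_of (by rw [← mul_assoc, ← pow_succ']; exact hm)
    have := ih (hf.iterate 2) (by have := hs.pos; positivity : 0 < 2 ^ l' * s) hsq
      ((precedes_iff hr hs k l').2 (by omega))
    rw [pow_succ', mul_assoc]
    rcases periods_of_sq this with h | ⟨ho, h⟩
    · exact h
    · rcases eq_or_ne (2 ^ l' * s) 1 with e | e
      · rw [e]; exact two_mem_periods hf hm3 hm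
      · refine two_mul_mem_periods hf ?_ ho h h.1
        obtain ⟨c, hc⟩ := ho; omega

end FA.Sharkovskii

end
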