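import Fermat.Agent.Sharkovskii.Forcing

/-!
# Self-maps of an interval

A continuous self-map of `[a, b]` has the same periods as its extension by the projection on it.
-/

set_option autoImplicit false

noncomputable section

open Function Set

namespace FA.Sharkovskii

theorem periods_extend {a b : ℝ} (hab : a ≤ b) (f : Icc a b → Icc a b) :
    periods (fun x => (f (projIcc a b hab x) : ℝ)) = periods f := by
  set F : ℝ → ℝ := fun x => (f (projIcc a b hab x) : ℝ)
  have hsc : Semiconj (Subtype.val : Icc a b → ℝ) f F := fun x => by simp [F]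
  have same : ∀ x : Icc a b, minimalPeriod F x = minimalPeriod f x := fun x =>
    minimalPeriod_eq_minimalPeriod_iff.2 fun n => by
      simp only [IsPeriodicPt, IsFixedPt, ← (hsc.iterate_right n).eq x, Subtype.coe_inj]
  ext n
  refine and_congr_right fun hn => ⟨fun ⟨x, hx⟩ => ?_, fun ⟨x, hx⟩ => ⟨x, (same x).trans hx⟩⟩
  have hxI : x ∈ Icc a b := by
    have e := (isPeriodicPt_pos hx).eq
    rw [show n = n - 1 + 1 by omega, iterate_succ_apply'] at e
    rw [← e]
    exact (f _).2
  exact ⟨⟨x, hxI⟩, (same ⟨x, hxI⟩).symm.trans hx⟩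

/-- Forcing for a continuous self-map of an interval. -/
theorem periods_forcing_Icc {a b : ℝ} (hab : a ≤ b) {f : Icc a b → Icc a b} (hf : Continuous f)
    {m n : ℕ} (hn : 0 < n) (hm : m ∈ periods f) (hmn : Precedes m n) : n ∈ periods f := by
  rw [← periods_extend hab f] at hm ⊢
  exact periods_forcing (continuous_subtype_val.comp (hf.comp continuous_projIcc)) hn hm hmn

end FA.Sharkovskii

end
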