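import Mathlib

/-!
# Sharkovskii's order

`3 ▷ 5 ▷ 7 ▷ ⋯ ▷ 2·3 ▷ 2·5 ▷ ⋯ ▷ 4·3 ▷ ⋯ ▷ 8 ▷ 4 ▷ 2 ▷ 1` on the positive integers.
-/

set_option autoImplicit false

namespace FA.Sharkovskii

/-- The odd part. -/
def oddPart (n : ℕ) : ℕ := n / 2 ^ padicValNat 2 n

/-- `m` comes before `n` in Sharkovskii's order. -/
def Precedes (m n : ℕ) : Prop :=
  (1 < oddPart m ∧ (oddPart n = 1 ∨ padicValNat 2 m < padicValNat 2 n ∨
      (padicValNat 2 m = padicValNat 2 n ∧ oddPart m < oddPart n))) ∨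
    (oddPart m = 1 ∧ oddPart n = 1 ∧ padicValNat 2 n < padicValNat 2 m)

theorem val_two_pow_mul {r : ℕ} (hr : Odd r) (k : ℕ) : padicValNat 2 (2 ^ k * r) = k := by
  have := Fact.mk Nat.prime_two
  rw [padicValNat.mul (by positivity) hr.pos.ne', padicValNat.prime_pow,
    padicValNat.eq_zero_of_not_dvd fun h => Nat.not_even_iff_odd.2 hr (even_iff_two_dvd.2 h),
    add_zero]

theorem oddPart_two_pow_mul {r : ℕ} (hr : Odd r) (k : ℕ) : oddPart (2 ^ k * r) = r := by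
  rw [oddPart, val_two_pow_mul hr, Nat.mul_div_cancel_left _ (by positivity)]

theorem precedes_iff {r s : ℕ} (hr : Odd r) (hs : Odd s) (k l : ℕ) :
    Precedes (2 ^ k * r) (2 ^ l * s) ↔
      (1 < r ∧ (s = 1 ∨ k < l ∨ (k = l ∧ r < s))) ∨ (r = 1 ∧ s = 1 ∧ l < k) := by
  rw [Precedes, val_two_pow_mul hr, val_two_pow_mul hs, oddPart_two_pow_mul hr,
    oddPart_two_pow_mul hs]

theorem exists_eq {n : ℕ} (hn : 0 < n) : ∃ k r : ℕ, Odd r ∧ n = 2 ^ k * r :=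
  Nat.exists_eq_two_pow_mul_odd hn.ne'

/-- Two positive integers are comparable. -/
theorem precedes_trichotomy {m n : ℕ} (hm : 0 < m) (hn : 0 < n) :
    Precedes m n ∨ m = n ∨ Precedes n m := by
  obtain ⟨k, r, hr, rfl⟩ := exists_eq hm
  obtain ⟨l, s, hs, rfl⟩ := exists_eq hn
  rw [precedes_iff hr hs, precedes_iff hs hr]
  by_cases h : k = l ∧ r = s
  · rw [h.1, h.2]; exact Or.inr (Or.inl rfl)
  · have := hr.pos; have := hs.pos; omega

theorem not_precedes_self {m : ℕ} (hm : 0 < m) : ¬ Precedes m m := by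
  obtain ⟨k, r, hr, rfl⟩ := exists_eq hm
  rw [precedes_iff hr hr]
  omega

end FA.Sharkovskii
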